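import Fermat.Agent.H3.Vanish
import Fermat.Prelude.Def_CuspForm_HeckeAlgebra

set_option autoImplicit false

open UpperHalfPlane hiding I
open Complex Filter Function Topology CongruenceSubgroup Matrix.SpecialLinearGroup
open scoped Manifold MatrixGroups ModularForm Pointwise

noncomputable section

namespace FAH3

lemma HD.comp_GL {F f : ℍ → ℂ} (h : HD F f) {g : GL (Fin 2) ℝ} (hg : 0 < g.val.det) :
    HD (fun τ => F (g • τ)) (fun τ => f (g • τ) * ((g.val.det : ℂ) / denom g τ ^ 2)) :=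
  h.comp (fun τ => g • τ) (fun τ => (g.val.det : ℂ) / denom g τ ^ 2)
    fun τ => (hasStrictDerivAt_smul hg τ).hasDerivAt

lemma val_det_heckeMatrix {p : ℕ} (hp : p ≠ 0) (j : ℕ) :
    (ModularForm.heckeMatrix p j).val.det = p := by
  rw [← Matrix.GeneralLinearGroup.val_det_apply]; exact ModularForm.det_heckeMatrix hp j

lemma val_det_heckeDiagMatrix {p : ℕ} (hp : p ≠ 0) :
    (ModularForm.heckeDiagMatrix p).val.det = p := by
  rw [← Matrix.GeneralLinearGroup.val_det_apply]; exact ModularForm.det_heckeDiagMatrix hp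

lemma HD.comp_heckeMatrix {F f : ℍ → ℂ} (h : HD F f) {p : ℕ} (hp : p ≠ 0) (j : ℕ) :
    HD (fun τ => F (ModularForm.heckeMatrix p j • τ))
      (fun τ => (p : ℂ)⁻¹ * f (ModularForm.heckeMatrix p j • τ)) := by
  have hp' : (p : ℂ) ≠ 0 := by exact_mod_cast hp
  have hpos : 0 < (ModularForm.heckeMatrix p j).val.det := by
    rw [val_det_heckeMatrix hp]; exact_mod_cast Nat.pos_of_ne_zero hp
  refine (h.comp_GL hpos).congr_right ?_
  funext τ
  rw [val_det_heckeMatrix hp, ModularForm.denom_heckeMatrix hp]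
  push_cast
  field_simp

lemma HD.comp_heckeDiagMatrix {F f : ℍ → ℂ} (h : HD F f) {p : ℕ} (hp : p ≠ 0) :
    HD (fun τ => F (ModularForm.heckeDiagMatrix p • τ))
      (fun τ => (p : ℂ) * f (ModularForm.heckeDiagMatrix p • τ)) := by
  have hpos : 0 < (ModularForm.heckeDiagMatrix p).val.det := by
    rw [val_det_heckeDiagMatrix hp]; exact_mod_cast Nat.pos_of_ne_zero hp
  refine (h.comp_GL hpos).congr_right ?_
  funext τ
  rw [val_det_heckeDiagMatrix hp, ModularForm.denom_heckeDiagMatrix hp]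
  push_cast
  ring

lemma isZero_smul {f : ℍ → ℂ} (c : ℂ) (hf : IsZeroAtImInfty f) : IsZeroAtImInfty (c • f) := by
  have := Tendsto.const_smul hf c
  rw [smul_zero] at this
  exact this

lemma isZero_add {f g : ℍ → ℂ} (hf : IsZeroAtImInfty f) (hg : IsZeroAtImInfty g) :
    IsZeroAtImInfty (f + g) := by
  have := Tendsto.add hf hg
  rw [add_zero] at this
  exact this

lemma isZero_sum {ι : Type*} (s : Finset ι) {f : ι → ℍ → ℂ} (h : ∀ i ∈ s, IsZeroAtImInfty (f i)) :
    IsZeroAtImInfty (∑ i ∈ s, f i) := by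
  classical
  induction s using Finset.induction_on with
  | empty =>
    simp only [Finset.sum_empty]
    exact tendsto_const_nhds
  | insert a s ha ih =>
    rw [Finset.sum_insert ha]
    exact isZero_add (h a (Finset.mem_insert_self a s))
      (ih fun i hi => h i (Finset.mem_insert_of_mem hi))

/-- The `U`-part of the Hecke action on chains of primitives. -/
theorem ZChain.heckeU {g : ℕ → ℍ → ℂ} (hg : ZChain g) (k : ℤ) {p : ℕ} (hp : p ≠ 0) :
    ZChain (fun i => ((p : ℂ) ^ i) • ModularForm.heckeU (k - 2 * i) p (g i)) where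
  hd i := by
    have hp' : (p : ℂ) ≠ 0 := by exact_mod_cast hp
    have h1 : HD (∑ j ∈ Finset.range p, fun τ => g (i + 1) (ModularForm.heckeMatrix p j • τ))
        (∑ j ∈ Finset.range p, fun τ => (p : ℂ)⁻¹ * g i (ModularForm.heckeMatrix p j • τ)) :=
      HD.sum _ fun j _ => (hg.hd i).comp_heckeMatrix hp j
    have h2 := h1.const_smul ((p : ℂ) ^ (i + 1) * (p : ℂ)⁻¹)
    have e1 : ((p : ℂ) ^ (i + 1)) • ModularForm.heckeU (k - 2 * ((i + 1 : ℕ) : ℤ)) p (g (i + 1)) =
        ((p : ℂ) ^ (i + 1) * (p : ℂ)⁻¹) •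
          ∑ j ∈ Finset.range p, fun τ => g (i + 1) (ModularForm.heckeMatrix p j • τ) := by
      funext τ
      simp only [Pi.smul_apply, smul_eq_mul, ModularForm.heckeU_apply _ hp, Finset.sum_apply]
      ring
    rw [e1]
    refine h2.congr_right ?_
    funext τ
    simp only [Pi.smul_apply, smul_eq_mul, ModularForm.heckeU_apply _ hp, Finset.sum_apply,
      ← Finset.mul_sum]
    rw [pow_succ]
    field_simp
  zero i := by
    refine isZero_smul _ ?_
    rw [ModularForm.heckeU_def]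
    refine isZero_sum _ fun j _ => ?_
    exact IsZeroAtImInfty.slash _ (by simp [ModularForm.val_heckeMatrix hp]) (hg.zero i)

/-- The diagonal part of the Hecke action on chains of primitives. -/
theorem ZChain.heckeDiag {g : ℕ → ℍ → ℂ} (hg : ZChain g) (k : ℤ) {p : ℕ} (hp : p ≠ 0) :
    ZChain (fun i => ((p : ℂ) ^ i) • ((g i) ∣[k - 2 * (i : ℤ)] ModularForm.heckeDiagMatrix p)) where
  hd i := by
    have hp' : (p : ℂ) ≠ 0 := by exact_mod_cast hp
    have h1 := (hg.hd i).comp_heckeDiagMatrix hp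
    have h2 := h1.const_smul ((p : ℂ) ^ (i + 1) * (p : ℂ) ^ (k - 2 * ((i + 1 : ℕ) : ℤ) - 1))
    have e1 : ((p : ℂ) ^ (i + 1)) •
        ((g (i + 1)) ∣[k - 2 * ((i + 1 : ℕ) : ℤ)] ModularForm.heckeDiagMatrix p) =
        ((p : ℂ) ^ (i + 1) * (p : ℂ) ^ (k - 2 * ((i + 1 : ℕ) : ℤ) - 1)) •
          fun τ => g (i + 1) (ModularForm.heckeDiagMatrix p • τ) := by
      funext τ
      simp only [Pi.smul_apply, smul_eq_mul, ModularForm.slash_heckeDiagMatrix_apply _ hp]
      ring
    rw [e1]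
    refine h2.congr_right ?_
    funext τ
    simp only [Pi.smul_apply, smul_eq_mul, ModularForm.slash_heckeDiagMatrix_apply _ hp]
    have e2 : (p : ℂ) ^ (k - 2 * (i : ℤ) - 1) = (p : ℂ) ^ (k - 2 * ((i + 1 : ℕ) : ℤ) - 1) * (p : ℂ) ^ 2 := by
      rw [← zpow_natCast (p : ℂ) 2, ← zpow_add₀ hp']
      congr 1
      push_cast
      ring
    rw [e2, pow_succ]
    ring
  zero i := by
    refine isZero_smul _ ?_
    exact IsZeroAtImInfty.slash _ (by simp [ModularForm.val_heckeDiagMatrix hp]) (hg.zero i)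

theorem ZChain.heckeT {g : ℕ → ℍ → ℂ} (hg : ZChain g) (k : ℤ) {p : ℕ} (hp : p ≠ 0) :
    ZChain (fun i => ((p : ℂ) ^ i) • ModularForm.heckeT (k - 2 * i) p (g i)) := by
  have := (hg.heckeU k hp).add (hg.heckeDiag k hp)
  convert this using 1
  funext i
  simp only [Pi.add_apply, ModularForm.heckeT_eq_heckeU_add, smul_add]

section chainOf

variable {N : ℕ} [NeZero N] {k : ℤ}

/-- the canonical chain of primitives (vanishing at `i∞`) of a cusp form -/
def chainOf (f : CuspForm (Gamma0 N) k) : ℕ → ℍ → ℂ :=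
  Classical.choose (exists_chain one_pos (cuspLike_cuspForm f))

lemma chainOf_zero (f : CuspForm (Gamma0 N) k) : chainOf f 0 = f :=
  (Classical.choose_spec (exists_chain one_pos (cuspLike_cuspForm f))).1

lemma chainOf_zchain (f : CuspForm (Gamma0 N) k) : ZChain (chainOf f) :=
  ⟨(Classical.choose_spec (exists_chain one_pos (cuspLike_cuspForm f))).2.2,
    fun i => ((Classical.choose_spec (exists_chain one_pos (cuspLike_cuspForm f))).2.1 i).zero⟩

lemma chainOf_eq {f : CuspForm (Gamma0 N) k} {g : ℕ → ℍ → ℂ} (hg : ZChain g) (h0 : g 0 = f) :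
    chainOf f = g :=
  (chainOf_zchain f).unique hg (by rw [chainOf_zero, h0])

lemma chainOf_add (f f' : CuspForm (Gamma0 N) k) : chainOf (f + f') = chainOf f + chainOf f' :=
  chainOf_eq ((chainOf_zchain f).add (chainOf_zchain f')) (by simp [chainOf_zero])

lemma chainOf_smul (c : ℂ) (f : CuspForm (Gamma0 N) k) : chainOf (c • f) = c • chainOf f :=
  chainOf_eq ((chainOf_zchain f).smul c) (by simp [chainOf_zero])

lemma chainOf_heckeT {p : ℕ} (hp : p.Prime) (hpN : ¬ p ∣ N) (f : CuspForm (Gamma0 N) k) :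
    chainOf (CuspForm.heckeTLin k hp hpN f) =
      fun i : ℕ => ((p : ℂ) ^ i) • ModularForm.heckeT (k - 2 * (i : ℤ)) p (chainOf f i) :=
  chainOf_eq ((chainOf_zchain f).heckeT k hp.ne_zero) (by simp [chainOf_zero])

lemma chainOf_heckeU {p : ℕ} (hpN : p ∣ N) (f : CuspForm (Gamma0 N) k) :
    chainOf (CuspForm.heckeULin k hpN f) =
      fun i : ℕ => ((p : ℂ) ^ i) • ModularForm.heckeU (k - 2 * (i : ℤ)) p (chainOf f i) :=
  chainOf_eq ((chainOf_zchain f).heckeU k
    (fun h => NeZero.ne N (Nat.eq_zero_of_zero_dvd (h ▸ hpN))))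
    (by simp [chainOf_zero])

end chainOf

section eich

variable {N : ℕ} [NeZero N] (n : ℕ)

/-- The Eichler integral, as a linear map. -/
def eich : CuspForm (Gamma0 N) ((n : ℤ) + 2) →ₗ[ℂ] (ℍ → ℂ) where
  toFun f := chainOf f (n + 1)
  map_add' f f' := by rw [chainOf_add]; rfl
  map_smul' c f := by rw [chainOf_smul]; rfl

lemma eich_apply (f : CuspForm (Gamma0 N) ((n : ℤ) + 2)) : eich n f = chainOf f (n + 1) := rfl

lemma eich_heckeT {p : ℕ} (hp : p.Prime) (hpN : ¬ p ∣ N) (f : CuspForm (Gamma0 N) ((n : ℤ) + 2)) :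
    eich n (CuspForm.heckeTLin ((n : ℤ) + 2) hp hpN f) =
      ((p : ℂ) ^ (n + 1)) • ModularForm.heckeT (-(n : ℤ)) p (eich n f) := by
  rw [eich_apply, chainOf_heckeT, eich_apply]
  have : (n : ℤ) + 2 - 2 * ((n + 1 : ℕ) : ℤ) = -(n : ℤ) := by push_cast; ring
  simp only [this]

lemma eich_heckeU {p : ℕ} (hpN : p ∣ N) (f : CuspForm (Gamma0 N) ((n : ℤ) + 2)) :
    eich n (CuspForm.heckeULin ((n : ℤ) + 2) hpN f) =
      ((p : ℂ) ^ (n + 1)) • ModularForm.heckeU (-(n : ℤ)) p (eich n f) := by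
  rw [eich_apply, chainOf_heckeU, eich_apply]
  have : (n : ℤ) + 2 - 2 * ((n + 1 : ℕ) : ℤ) = -(n : ℤ) := by push_cast; ring
  simp only [this]

/-- The period cocycle. -/
def coc (γ : SL(2, ℤ)) : CuspForm (Gamma0 N) ((n : ℤ) + 2) →ₗ[ℂ] (ℍ → ℂ) where
  toFun f := eich n f ∣[-(n : ℤ)] γ - eich n f
  map_add' f f' := by
    rw [map_add, SlashAction.add_slash]
    abel
  map_smul' c f := by
    rw [map_smul, ModularForm.SL_smul_slash, RingHom.id_apply, smul_sub]

lemma coc_apply (γ : SL(2, ℤ)) (f : CuspForm (Gamma0 N) ((n : ℤ) + 2)) :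
    coc n γ f = eich n f ∣[-(n : ℤ)] γ - eich n f := rfl

lemma coc_one (f : CuspForm (Gamma0 N) ((n : ℤ) + 2)) : coc n 1 f = 0 := by
  rw [coc_apply, SlashAction.slash_one, sub_self]

lemma coc_mul (γ δ : SL(2, ℤ)) (f : CuspForm (Gamma0 N) ((n : ℤ) + 2)) :
    coc n (γ * δ) f = (coc n γ f) ∣[-(n : ℤ)] δ + coc n δ f := by
  simp only [coc_apply, SlashAction.slash_mul, sub_eq_add_neg, SlashAction.add_slash,
    SlashAction.neg_slash]
  abel

lemma coc_inv (γ : SL(2, ℤ)) (f : CuspForm (Gamma0 N) ((n : ℤ) + 2)) :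
    coc n γ⁻¹ f = -((coc n γ f) ∣[-(n : ℤ)] γ⁻¹) := by
  have h := coc_mul n γ γ⁻¹ f
  rw [mul_inv_cancel, coc_one] at h
  exact eq_neg_of_add_eq_zero_right h.symm

lemma coc_polyOn {γ : SL(2, ℤ)} (hγ : γ ∈ Gamma0 N) (f : CuspForm (Gamma0 N) ((n : ℤ) + 2)) :
    PolyOn n (coc n γ f) := by
  refine lemmaE n γ (chainOf f) (chainOf f) (chainOf_zchain f).hd (chainOf_zchain f).hd ?_
  rw [chainOf_zero]
  exact (SlashInvariantFormClass.slash_action_eq f _ (Subgroup.mem_map_of_mem (mapGL ℝ) hγ)).symm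

/-- The coefficients of the period polynomial as linear functionals. -/
lemma exists_coc_coeff {γ : SL(2, ℤ)} (hγ : γ ∈ Gamma0 N) :
    ∃ a : ℕ → Module.Dual ℂ (CuspForm (Gamma0 N) ((n : ℤ) + 2)),
      ∀ f X, coc n γ f X = ∑ j ∈ Finset.range (n + 1), a j f * (X : ℂ) ^ j := by
  classical
  let b := Module.Basis.ofVectorSpace ℂ (CuspForm (Gamma0 N) ((n : ℤ) + 2))
  choose α hα using fun i => coc_polyOn n hγ (b i)
  let a : ℕ → Module.Dual ℂ (CuspForm (Gamma0 N) ((n : ℤ) + 2)) :=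
    fun j => b.constr ℂ (fun i => α i j)
  let L : CuspForm (Gamma0 N) ((n : ℤ) + 2) →ₗ[ℂ] (ℍ → ℂ) :=
    ∑ j ∈ Finset.range (n + 1), (a j).smulRight (fun X : ℍ => (X : ℂ) ^ j)
  have hL : coc n γ = L := by
    refine b.ext fun i => ?_
    funext X
    rw [hα i X]
    simp [L, a, Module.Basis.constr_basis]
  refine ⟨a, fun f X => ?_⟩
  rw [hL]
  simp [L]

end eich

end FAH3
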