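import Fermat.Agent.H3.Lattice

set_option autoImplicit false

open UpperHalfPlane hiding I
open Complex Filter Function Topology CongruenceSubgroup Matrix.SpecialLinearGroup
open scoped Manifold MatrixGroups ModularForm Pointwise

noncomputable section

namespace FAH3

lemma fg_SL2Z : Group.FG SL(2, ℤ) :=
  Group.fg_iff.mpr ⟨{ModularGroup.S, ModularGroup.T}, SpecialLinearGroup.SL2Z_generators,
    by simp⟩

lemma fg_Gamma0 (N : ℕ) [NeZero N] : Group.FG (Gamma0 N) :=
  haveI := fg_SL2Z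
  Subgroup.fg_of_index_ne_zero (Gamma0 N)

variable {N : ℕ} [NeZero N] (n : ℕ)

/-- The period lattice: a finitely generated subgroup of the dual of the space of cusp forms,
stable under all Hecke operators and separating points. -/
theorem exists_lattice :
    ∃ Λ : Submodule ℤ (Module.Dual ℂ (CuspForm (Gamma0 N) ((n : ℤ) + 2))), Λ.FG ∧
      (∀ t : Module.End ℂ (CuspForm (Gamma0 N) ((n : ℤ) + 2)),
        (∀ Λ' : Submodule ℤ (Module.Dual ℂ (CuspForm (Gamma0 N) ((n : ℤ) + 2))),
          (∀ γ ∈ Gamma0 N, IsPolL n Λ' (fun f => coc n γ f)) →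
            ∀ γ ∈ Gamma0 N, IsPolL n Λ' (fun f => coc n γ (t f))) →
        ∀ l ∈ Λ, l ∘ₗ t ∈ Λ) ∧
      (∀ f, (∀ l ∈ Λ, l f = 0) → f = 0) := by
  classical
  obtain ⟨S, hS, hSfin⟩ := Group.fg_iff.mp (fg_Gamma0 N)
  choose a ha using fun s : Gamma0 N => exists_coc_coeff n s.2
  set G : Set (Module.Dual ℂ (CuspForm (Gamma0 N) ((n : ℤ) + 2))) :=
    (fun x : (Gamma0 N) × ℕ => a x.1 x.2) '' (S ×ˢ (Finset.range (n + 1) : Set ℕ)) with hG
  have hGfin : G.Finite := (hSfin.prod (Finset.finite_toSet _)).image _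
  set Λ := Submodule.span ℤ G with hΛ
  have hmem : ∀ s ∈ S, ∀ j ≤ n, a s j ∈ Λ := fun s hs j hj =>
    Submodule.subset_span ⟨(s, j), ⟨hs, by simpa using Nat.lt_succ_iff.mpr hj⟩, rfl⟩
  -- all cocycle values have coefficients in `Λ`
  have hall : ∀ γ ∈ Gamma0 N, IsPolL n Λ (fun f => coc n γ f) := by
    intro γ hγ
    have hx : (⟨γ, hγ⟩ : Gamma0 N) ∈ Subgroup.closure S := by rw [hS]; trivial
    have : ∀ x : Gamma0 N, x ∈ Subgroup.closure S →
        IsPolL n Λ (fun f => coc n (x : SL(2, ℤ)) f) := by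
      intro x hx
      induction hx using Subgroup.closure_induction with
      | mem s hs => exact ⟨a s, hmem s hs, ha s⟩
      | one =>
        refine IsPolL.zero.congr fun f => ?_
        rw [Subgroup.coe_one]
        exact coc_one n f
      | mul x y _ _ hx hy =>
        refine ((hx.slash_SL (y : SL(2, ℤ))).add hy).congr fun f => ?_
        rw [Subgroup.coe_mul]
        exact coc_mul n _ _ f
      | inv x _ hx =>
        refine ((hx.slash_SL ((x : SL(2, ℤ))⁻¹)).neg).congr fun f => ?_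
        rw [Subgroup.coe_inv]
        exact coc_inv n _ f
    have h := this ⟨γ, hγ⟩ hx
    exact h
  refine ⟨Λ, Submodule.fg_span hGfin, ?_, ?_⟩
  · intro t ht l hl
    have ht' := ht Λ hall
    induction hl using Submodule.span_induction with
    | mem x hx =>
      obtain ⟨⟨s, j⟩, ⟨hs, hj⟩, rfl⟩ := hx
      have hj' : j ≤ n := Nat.lt_succ_iff.mp (by simpa using hj)
      obtain ⟨μ, hμ, hμ'⟩ := ht' s s.2
      have : a s j ∘ₗ t = μ j := by
        ext f
        refine poly_coeff_unique (n := n) (a := fun j => a s j (t f)) (b := fun j => μ j f)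
          (fun X => ?_) hj'
        rw [← ha s (t f) X, ← hμ' f X]
      show a s j ∘ₗ t ∈ Λ
      rw [this]
      exact hμ j hj'
    | zero => simp
    | add x y _ _ hx hy =>
      rw [LinearMap.add_comp]
      exact Λ.add_mem hx hy
    | smul c x _ hx =>
      rw [LinearMap.smul_comp]
      exact Λ.smul_mem c hx
  · intro f hf
    refine vanish n f (chainOf f) (chainOf_zchain f) (chainOf_zero f) ?_
    rintro _ ⟨γ, hγ, rfl⟩
    obtain ⟨α, hα, hα'⟩ := hall γ hγ
    have h0 : coc n γ f = 0 := by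
      funext X
      refine (hα' f X).trans ?_
      refine Finset.sum_eq_zero fun j hj => ?_
      rw [hf _ (hα j (Nat.lt_succ_iff.mp (Finset.mem_range.mp hj))), zero_mul]
    rw [coc_apply] at h0
    exact sub_eq_zero.mp h0

theorem moduleFinite_of_two_le (S : Set ℕ) :
    Module.Finite ℤ (CuspForm.heckeAlgebra N ((n : ℤ) + 2) S) := by
  classical
  obtain ⟨Λ, hfg, hstab, hsep⟩ := exists_lattice (N := N) n
  have hgen : ∀ t ∈ CuspForm.heckeGenerators N ((n : ℤ) + 2) S, ∀ l ∈ Λ, l ∘ₗ t ∈ Λ := by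
    rintro t (⟨ℓ, hℓ, hℓN, -, rfl⟩ | ⟨q, hqN, -, -, rfl⟩)
    · exact hstab _ fun Λ' H γ hγ => isPolL_coc_heckeT n hℓ hℓN H hγ
    · exact hstab _ fun Λ' H γ hγ => isPolL_coc_heckeU n hqN H hγ
  have hall : ∀ t ∈ CuspForm.heckeAlgebra N ((n : ℤ) + 2) S, ∀ l ∈ Λ, l ∘ₗ t ∈ Λ := by
    intro t ht
    induction ht using Algebra.adjoin_induction with
    | mem t ht => exact hgen t ht
    | algebraMap r =>
      intro l hl
      have : l ∘ₗ (algebraMap ℤ (Module.End ℂ (CuspForm (Gamma0 N) ((n : ℤ) + 2))) r) = r • l := by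
        ext f
        simp
      rw [this]
      exact Λ.smul_mem r hl
    | add x y _ _ hx hy =>
      intro l hl
      rw [LinearMap.comp_add]
      exact Λ.add_mem (hx l hl) (hy l hl)
    | mul x y _ _ hx hy =>
      intro l hl
      exact hy _ (hx l hl)
  have hfin : Module.Finite ℤ Λ := Module.Finite.iff_fg.mpr hfg
  obtain ⟨s, hs⟩ := hfg
  have hsΛ : ∀ i : s, (i : Module.Dual ℂ (CuspForm (Gamma0 N) ((n : ℤ) + 2))) ∈ Λ := fun i => by
    rw [← hs]; exact Submodule.subset_span i.2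
  let Ψ : CuspForm.heckeAlgebra N ((n : ℤ) + 2) S →ₗ[ℤ] (s → Λ) :=
    { toFun := fun t i => ⟨(i : Module.Dual ℂ (CuspForm (Gamma0 N) ((n : ℤ) + 2))) ∘ₗ
        (t : Module.End ℂ (CuspForm (Gamma0 N) ((n : ℤ) + 2))), hall t t.2 _ (hsΛ i)⟩
      map_add' := fun t t' => by
        funext i
        apply Subtype.ext
        simp [LinearMap.comp_add]
      map_smul' := fun c t => by
        funext i
        apply Subtype.ext
        ext f
        simp }
  have hinj : Function.Injective Ψ := by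
    rw [injective_iff_map_eq_zero]
    intro t ht
    have h1 : ∀ i : s, (i : Module.Dual ℂ (CuspForm (Gamma0 N) ((n : ℤ) + 2))) ∘ₗ
        (t : Module.End ℂ (CuspForm (Gamma0 N) ((n : ℤ) + 2))) = 0 := fun i =>
      congrArg Subtype.val (congrFun ht i)
    have h2 : ∀ l ∈ Λ, l ∘ₗ (t : Module.End ℂ (CuspForm (Gamma0 N) ((n : ℤ) + 2))) = 0 := by
      intro l hl
      rw [← hs] at hl
      induction hl using Submodule.span_induction with
      | mem x hx => exact h1 ⟨x, hx⟩
      | zero => simp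
      | add x y _ _ hx hy => rw [LinearMap.add_comp, hx, hy, add_zero]
      | smul c x _ hx => rw [LinearMap.smul_comp, hx, smul_zero]
    apply Subtype.ext
    ext1 f
    refine hsep _ fun l hl => ?_
    have := congrArg (fun L => L f) (h2 l hl)
    simpa using this
  exact Module.Finite.of_injective Ψ hinj

omit n in
lemma cuspForm_eq_zero_of_le_one {k : ℤ} (hk : k ≤ 1) (f : CuspForm (Gamma0 N) k) : f = 0 := by
  let F : ModularForm (Gamma0 N : Subgroup (GL (Fin 2) ℝ)) k := ModularFormClass.modularForm f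
  have hF : (⇑F : ℍ → ℂ) = ⇑f := rfl
  apply DFunLike.coe_injective
  rw [← hF]
  rcases hk.lt_or_eq with hk | rfl
  · exact modularForm_eq_zero_of_nonpos (by omega) F (CuspFormClass.zero_at_infty f)
  · have hneg : (-1 : GL (Fin 2) ℝ) ∈ (Gamma0 N : Subgroup (GL (Fin 2) ℝ)) :=
      ⟨-1, by simp [Gamma0_mem], by ext; simp⟩
    rw [ModularForm.eq_zero_of_neg_one_mem hneg odd_one F]
    rfl

omit n in
theorem moduleFinite_heckeAlgebra_all (k : ℤ) (S : Set ℕ) :
    Module.Finite ℤ (CuspForm.heckeAlgebra N k S) := by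
  rcases le_or_gt k 1 with hk | hk
  · have h1 : Subsingleton (CuspForm (Gamma0 N) k) :=
      ⟨fun f g => by rw [cuspForm_eq_zero_of_le_one hk f, cuspForm_eq_zero_of_le_one hk g]⟩
    have h2 : Subsingleton (Module.End ℂ (CuspForm (Gamma0 N) k)) :=
      ⟨fun a b => LinearMap.ext fun f => Subsingleton.elim _ _⟩
    have h3 : Subsingleton (CuspForm.heckeAlgebra N k S) :=
      ⟨fun a b => Subtype.ext (Subsingleton.elim _ _)⟩
    infer_instance
  · obtain ⟨n, rfl⟩ : ∃ n : ℕ, k = (n : ℤ) + 2 := ⟨(k - 2).toNat, by omega⟩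
    exact moduleFinite_of_two_le n S

end FAH3
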