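import Fermat.Agent.H3.Prim

set_option autoImplicit false

open UpperHalfPlane hiding I
open Complex Filter Function Topology
open scoped Manifold MatrixGroups ModularForm

noncomputable section

namespace FAH3

/-- integer coefficients of `(aX+b)^j (cX+d)^(n-j)` -/
def actCoeff (n : ℕ) (a b c d : ℤ) (i j : ℕ) : ℤ :=
  ((Polynomial.C a * Polynomial.X + Polynomial.C b) ^ j *
    (Polynomial.C c * Polynomial.X + Polynomial.C d) ^ (n - j) : Polynomial ℤ).coeff i

lemma actCoeff_spec (n : ℕ) (a b c d : ℤ) (x : ℂ) {j : ℕ} (hj : j ≤ n) :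
    ((a : ℂ) * x + b) ^ j * ((c : ℂ) * x + d) ^ (n - j) =
      ∑ i ∈ Finset.range (n + 1), (actCoeff n a b c d i j : ℂ) * x ^ i := by
  set P : Polynomial ℤ := (Polynomial.C a * Polynomial.X + Polynomial.C b) ^ j *
    (Polynomial.C c * Polynomial.X + Polynomial.C d) ^ (n - j) with hP
  have hdeg : P.natDegree < n + 1 := by
    have h1 : (Polynomial.C a * Polynomial.X + Polynomial.C b : Polynomial ℤ).natDegree ≤ 1 :=
      Polynomial.natDegree_linear_le
    have h2 : (Polynomial.C c * Polynomial.X + Polynomial.C d : Polynomial ℤ).natDegree ≤ 1 :=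
      Polynomial.natDegree_linear_le
    have h3 : P.natDegree ≤ j * 1 + (n - j) * 1 :=
      Polynomial.natDegree_mul_le.trans
        (add_le_add (Polynomial.natDegree_pow_le_of_le j h1) (Polynomial.natDegree_pow_le_of_le _ h2))
    omega
  have h := Polynomial.aeval_eq_sum_range' hdeg x
  have h' : Polynomial.aeval x P = ((a : ℂ) * x + b) ^ j * ((c : ℂ) * x + d) ^ (n - j) := by
    simp [hP]
  rw [← h', h]
  refine Finset.sum_congr rfl fun i _ => ?_
  simp [actCoeff, hP, zsmul_eq_mul]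

/-- The key identity for the action of integral matrices on polynomials of degree `≤ n`. -/
lemma act_identity (n : ℕ) (g : GL (Fin 2) ℝ) (hdet : 0 < g.det.val) (a b c d : ℤ)
    (h00 : g 0 0 = a) (h01 : g 0 1 = b) (h10 : g 1 0 = c) (h11 : g 1 1 = d)
    (α : ℕ → ℂ) (X : ℍ) :
    denom g X ^ n * ∑ j ∈ Finset.range (n + 1), α j * ((g • X : ℍ) : ℂ) ^ j =
      ∑ i ∈ Finset.range (n + 1),
        (∑ j ∈ Finset.range (n + 1), (actCoeff n a b c d i j : ℂ) * α j) * (X : ℂ) ^ i := by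
  have hden : denom g X ≠ 0 := denom_ne_zero g X
  have hnum' : num g X = (a : ℂ) * X + b := by simp [num, h00, h01]
  have hden' : denom g X = (c : ℂ) * X + d := by simp [denom, h10, h11]
  rw [coe_smul_of_det_pos hdet, Finset.mul_sum]
  have h1 : ∀ j ∈ Finset.range (n + 1), denom g X ^ n * (α j * (num g X / denom g X) ^ j) =
      ∑ i ∈ Finset.range (n + 1), (actCoeff n a b c d i j : ℂ) * α j * (X : ℂ) ^ i := by
    intro j hj
    have hj' : j ≤ n := Nat.lt_succ_iff.mp (Finset.mem_range.mp hj)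
    have h2 : denom g X ^ n * (num g X / denom g X) ^ j = num g X ^ j * denom g X ^ (n - j) := by
      rw [div_pow, ← Nat.sub_add_cancel hj', pow_add, Nat.add_sub_cancel]
      field_simp
    calc denom g X ^ n * (α j * (num g X / denom g X) ^ j)
        = α j * (denom g X ^ n * (num g X / denom g X) ^ j) := by ring
      _ = α j * ∑ i ∈ Finset.range (n + 1), (actCoeff n a b c d i j : ℂ) * (X : ℂ) ^ i := by
          rw [h2, hnum', hden', actCoeff_spec n a b c d X hj']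
      _ = _ := by
          rw [Finset.mul_sum]
          exact Finset.sum_congr rfl fun i _ => by ring
  rw [Finset.sum_congr rfl h1, Finset.sum_comm]
  exact Finset.sum_congr rfl fun i _ => by rw [Finset.sum_mul]

/-- polynomial functions of degree `≤ n` on `ℍ` -/
def PolyOn (n : ℕ) (p : ℍ → ℂ) : Prop :=
  ∃ a : ℕ → ℂ, ∀ X : ℍ, p X = ∑ j ∈ Finset.range (n + 1), a j * (X : ℂ) ^ j

lemma PolyOn.add {n : ℕ} {p q : ℍ → ℂ} (hp : PolyOn n p) (hq : PolyOn n q) : PolyOn n (p + q) := by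
  obtain ⟨a, ha⟩ := hp
  obtain ⟨b, hb⟩ := hq
  refine ⟨a + b, fun X => ?_⟩
  simp [ha X, hb X, add_mul, Finset.sum_add_distrib]

lemma PolyOn.smul {n : ℕ} {p : ℍ → ℂ} (c : ℂ) (hp : PolyOn n p) : PolyOn n (c • p) := by
  obtain ⟨a, ha⟩ := hp
  refine ⟨c • a, fun X => ?_⟩
  simp [ha X, Finset.mul_sum, mul_assoc]

lemma PolyOn.sub {n : ℕ} {p q : ℍ → ℂ} (hp : PolyOn n p) (hq : PolyOn n q) : PolyOn n (p - q) := by
  have := hp.add (hq.smul (-1))
  simpa [sub_eq_add_neg] using this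

lemma PolyOn.succ {n : ℕ} {p : ℍ → ℂ} (hp : PolyOn n p) : PolyOn (n + 1) p := by
  obtain ⟨a, ha⟩ := hp
  refine ⟨fun j => if j ≤ n then a j else 0, fun X => ?_⟩
  rw [Finset.sum_range_succ, ha X]
  simp only [show ¬ (n + 1 ≤ n) by omega, if_false, zero_mul, add_zero]
  refine Finset.sum_congr rfl fun j hj => ?_
  rw [if_pos (Nat.lt_succ_iff.mp (Finset.mem_range.mp hj))]

lemma PolyOn.sub_pow (m : ℕ) (t : ℂ) : PolyOn m (fun X : ℍ => ((X : ℂ) - t) ^ m) := by
  refine ⟨fun j => (-t) ^ (m - j) * (m.choose j : ℂ), fun X => ?_⟩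
  show ((X : ℂ) - t) ^ m = _
  rw [sub_eq_add_neg, add_pow]
  exact Finset.sum_congr rfl fun j _ => by ring

lemma PolyOn.act {n : ℕ} {p : ℍ → ℂ} (hp : PolyOn n p) (g : GL (Fin 2) ℝ) (hdet : 0 < g.det.val)
    (a b c d : ℤ) (h00 : g 0 0 = a) (h01 : g 0 1 = b) (h10 : g 1 0 = c) (h11 : g 1 1 = d) :
    PolyOn n (fun X => denom g X ^ n * p (g • X)) := by
  obtain ⟨α, hα⟩ := hp
  refine ⟨fun i => ∑ j ∈ Finset.range (n + 1), (actCoeff n a b c d i j : ℂ) * α j, fun X => ?_⟩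
  show denom g X ^ n * p (g • X) = _
  rw [hα, act_identity n g hdet a b c d h00 h01 h10 h11]

/-- the primitive (in `τ`) of `(X-τ)^m g_0(τ)` -/
def EE : ℕ → (ℕ → ℍ → ℂ) → ℍ → ℂ → ℂ
  | 0, g, τ, _ => g 1 τ
  | (m + 1), g, τ, X => (X - τ) ^ (m + 1) * g 1 τ + ((m : ℂ) + 1) * EE m (fun i => g (i + 1)) τ X

lemma EE_hd (m : ℕ) : ∀ (g : ℕ → ℍ → ℂ), (∀ i, HD (g (i + 1)) (g i)) → ∀ X : ℂ,
    HD (fun τ => EE m g τ X) (fun τ => (X - τ) ^ m * g 0 τ) := by
  induction m with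
  | zero =>
    intro g hg X
    simpa [EE] using hg 0
  | succ m ih =>
    intro g hg X
    have h1 : HD (fun τ : ℍ => (X - (τ : ℂ)) ^ (m + 1))
        (fun τ : ℍ => -((m : ℂ) + 1) * (X - τ) ^ m) := by
      refine HD.of_complex (P := fun z => (X - z) ^ (m + 1))
        (P' := fun z => -((m : ℂ) + 1) * (X - z) ^ m) ?_
      intro z _
      have := ((hasDerivAt_id z).const_sub X).pow (m + 1)
      refine this.congr_deriv ?_
      simp
      ring
    have h2 := h1.mul (hg 0)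
    have h3 := (ih (fun i => g (i + 1)) (fun i => hg (i + 1)) X).const_smul ((m : ℂ) + 1)
    have h4 := h2.add h3
    have e1 : (fun τ => EE (m + 1) g τ X) = (fun τ : ℍ => (X - (τ : ℂ)) ^ (m + 1)) * g (0 + 1) +
        ((m : ℂ) + 1) • fun τ => EE m (fun i => g (i + 1)) τ X := by
      funext τ
      simp [EE]
    rw [e1]
    refine h4.congr_right ?_
    funext τ
    simp only [Pi.add_apply, Pi.mul_apply, Pi.smul_apply, smul_eq_mul, zero_add]
    ring

lemma EE_diag (m : ℕ) : ∀ (g : ℕ → ℍ → ℂ) (τ : ℍ), EE m g τ τ = (m.factorial : ℂ) * g (m + 1) τ := by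
  induction m with
  | zero => intro g τ; simp [EE]
  | succ m ih =>
    intro g τ
    simp only [EE, sub_self, ih]
    rw [Nat.factorial_succ]
    push_cast
    ring

lemma EE_poly (m : ℕ) : ∀ (g : ℕ → ℍ → ℂ) (τ : ℍ), PolyOn m (fun X : ℍ => EE m g τ X) := by
  induction m with
  | zero =>
    intro g τ
    exact ⟨fun _ => g 1 τ, fun X => by simp [EE]⟩
  | succ m ih =>
    intro g τ
    have h1 := (PolyOn.sub_pow (m + 1) (τ : ℂ)).smul (g 1 τ)
    have h2 := (ih (fun i => g (i + 1)) τ).succ.smul ((m : ℂ) + 1)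
    have h3 := h1.add h2
    have e : (fun X : ℍ => EE (m + 1) g τ X) = (g 1 τ • fun X : ℍ => ((X : ℂ) - τ) ^ (m + 1)) +
        ((m : ℂ) + 1) • fun X : ℍ => EE m (fun i => g (i + 1)) τ X := by
      funext X
      simp [EE, mul_comm]
    rw [e]
    exact h3

lemma smul_sub_smul (γ : SL(2, ℤ)) (X τ : ℍ) :
    ((γ • X : ℍ) : ℂ) - ((γ • τ : ℍ) : ℂ) = ((X : ℂ) - τ) / (denom γ X * denom γ τ) := by
  have hX : denom γ X ≠ 0 := denom_ne_zero γ X
  have hτ : denom γ τ ≠ 0 := denom_ne_zero γ τ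
  have hdet : ((γ 0 0 : ℤ) : ℂ) * (γ 1 1 : ℤ) - ((γ 0 1 : ℤ) : ℂ) * (γ 1 0 : ℤ) = 1 := by
    have := γ.det_coe
    rw [Matrix.det_fin_two] at this
    exact_mod_cast this
  rw [coe_specialLinearGroup_apply, coe_specialLinearGroup_apply]
  rw [ModularGroup.denom_apply] at hX hτ ⊢
  rw [ModularGroup.denom_apply] at *
  simp only [algebraMap_int_eq, Int.coe_castRingHom, ofReal_intCast]
  rw [div_sub_div _ _ hX hτ, div_left_inj' (mul_ne_zero hX hτ)]
  linear_combination ((X : ℂ) - τ) * hdet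

lemma HD.comp_SL {F f : ℍ → ℂ} (h : HD F f) (γ : SL(2, ℤ)) :
    HD (fun τ => F (γ • τ)) (fun τ => f (γ • τ) * (1 / denom γ τ ^ 2)) := by
  have hdet : 0 < ((γ : GL (Fin 2) ℝ)).val.det := by
    rw [← Matrix.GeneralLinearGroup.val_det_apply]; simp
  have hdet1 : ((γ : GL (Fin 2) ℝ)).val.det = 1 := by
    rw [← Matrix.GeneralLinearGroup.val_det_apply]; simp
  refine h.comp (fun τ => γ • τ) (fun τ => 1 / denom γ τ ^ 2) fun τ => ?_
  have := (hasStrictDerivAt_smul hdet τ).hasDerivAt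
  rw [hdet1] at this
  simpa using this

/-- **Bol-type lemma**: the weight `-n` slash of the `(n+1)`-fold primitive of `f` differs from the
`(n+1)`-fold primitive of the weight `n+2` slash of `f` by a polynomial of degree `≤ n`. -/
theorem lemmaE (n : ℕ) (γ : SL(2, ℤ)) (g g' : ℕ → ℍ → ℂ) (hg : ∀ i, HD (g (i + 1)) (g i))
    (hg' : ∀ i, HD (g' (i + 1)) (g' i)) (h0 : g' 0 = g 0 ∣[((n : ℤ) + 2)] γ) :
    PolyOn n ((g (n + 1)) ∣[-(n : ℤ)] γ - g' (n + 1)) := by
  have key : ∀ X : ℍ, (n.factorial : ℂ) * (((g (n + 1)) ∣[-(n : ℤ)] γ) X - g' (n + 1) X) =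
      denom γ X ^ n * EE n g (γ • UpperHalfPlane.I) ((γ • X : ℍ) : ℂ) - EE n g' UpperHalfPlane.I X := by
    intro X
    have hA := ((EE_hd n g hg ((γ • X : ℍ) : ℂ)).comp_SL γ).const_smul (denom γ X ^ n)
    have hB := EE_hd n g' hg' (X : ℂ)
    have hAB := hA.sub hB
    have hz : ((denom γ X ^ n) • fun τ : ℍ => (((γ • X : ℍ) : ℂ) - ((γ • τ : ℍ) : ℂ)) ^ n * g 0 (γ • τ) *
        (1 / denom γ τ ^ 2)) - (fun τ : ℍ => ((X : ℂ) - τ) ^ n * g' 0 τ) = 0 := by
      funext τ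
      have hX : denom γ X ≠ 0 := denom_ne_zero γ X
      have hτ : denom γ τ ≠ 0 := denom_ne_zero γ τ
      simp only [Pi.sub_apply, Pi.smul_apply, smul_eq_mul, Pi.zero_apply]
      rw [h0, ModularForm.SL_slash_apply, smul_sub_smul, neg_add, zpow_add₀ hτ, zpow_neg, zpow_neg,
        zpow_natCast, div_pow, mul_pow]
      have : denom γ τ ^ (2 : ℤ) = denom γ τ ^ 2 := by norm_cast
      rw [this]
      field_simp
      ring
    rw [hz] at hAB
    have hc := hAB.const_of_zero X UpperHalfPlane.I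
    simp only [Pi.sub_apply, Pi.smul_apply, smul_eq_mul] at hc
    rw [EE_diag, EE_diag] at hc
    rw [← hc, ModularForm.SL_slash_apply, neg_neg, zpow_natCast]
    ring
  have hdet : 0 < ((γ : GL (Fin 2) ℝ)).det.val := by simp
  have hP1 : PolyOn n (fun X : ℍ => denom γ X ^ n * EE n g (γ • UpperHalfPlane.I) ((γ • X : ℍ) : ℂ)) :=
    (EE_poly n g (γ • UpperHalfPlane.I)).act (γ : GL (Fin 2) ℝ) hdet (γ 0 0) (γ 0 1) (γ 1 0) (γ 1 1)
      (by simp) (by simp) (by simp) (by simp)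
  have hP := (hP1.sub (EE_poly n g' UpperHalfPlane.I)).smul ((n.factorial : ℂ)⁻¹)
  have e : (g (n + 1)) ∣[-(n : ℤ)] γ - g' (n + 1) = (n.factorial : ℂ)⁻¹ •
      ((fun X : ℍ => denom γ X ^ n * EE n g (γ • UpperHalfPlane.I) ((γ • X : ℍ) : ℂ)) -
        fun X : ℍ => EE n g' UpperHalfPlane.I X) := by
    funext X
    have hf : (n.factorial : ℂ) ≠ 0 := by exact_mod_cast n.factorial_ne_zero
    simp only [Pi.sub_apply, Pi.smul_apply, smul_eq_mul]
    rw [← key X]
    field_simp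
  rw [e]
  exact hP

/-- the honest polynomial attached to a coefficient sequence -/
def polyOf (n : ℕ) (a : ℕ → ℂ) : Polynomial ℂ :=
  ∑ j ∈ Finset.range (n + 1), Polynomial.C (a j) * Polynomial.X ^ j

lemma polyOf_eval (n : ℕ) (a : ℕ → ℂ) (x : ℂ) :
    (polyOf n a).eval x = ∑ j ∈ Finset.range (n + 1), a j * x ^ j := by
  simp [polyOf, Polynomial.eval_finsetSum]

lemma polyOf_coeff (n : ℕ) (a : ℕ → ℂ) {i : ℕ} (hi : i ≤ n) : (polyOf n a).coeff i = a i := by
  simp only [polyOf, Polynomial.finsetSum_coeff, Polynomial.coeff_C_mul_X_pow]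
  rw [Finset.sum_eq_single i]
  · simp
  · intro j _ hj
    rw [if_neg (fun h => hj h.symm)]
  · intro h
    exact absurd (Finset.mem_range.mpr (Nat.lt_succ_iff.mpr hi)) h

lemma infinite_shifts {M : ℝ} (hM : M ≠ 0) (S : Set ℂ)
    (h : ∀ m : ℕ, (Complex.I + (m : ℂ) * (M : ℂ)) ∈ S) : S.Infinite := by
  refine Set.infinite_of_injective_forall_mem (f := fun m : ℕ => Complex.I + (m : ℂ) * (M : ℂ)) ?_ h
  intro m m' hmm
  have hM' : (M : ℂ) ≠ 0 := by exact_mod_cast hM
  have h1 : (m : ℂ) * (M : ℂ) = (m' : ℂ) * (M : ℂ) := add_left_cancel hmm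
  have h2 : (m : ℂ) = (m' : ℂ) := mul_right_cancel₀ hM' h1
  exact_mod_cast h2

lemma shift_im_pos (m : ℕ) (M : ℝ) : 0 < (Complex.I + (m : ℂ) * (M : ℂ)).im := by
  have : ((m : ℂ) * (M : ℂ)).im = 0 := by
    rw [show (m : ℂ) * (M : ℂ) = (((m : ℝ) * M : ℝ) : ℂ) by push_cast; ring]
    exact Complex.ofReal_im _
  rw [Complex.add_im, this]
  simp

/-- A polynomial function on `ℍ` determines its coefficients. -/
lemma poly_coeff_unique {n : ℕ} {a b : ℕ → ℂ}
    (h : ∀ X : ℍ, ∑ j ∈ Finset.range (n + 1), a j * (X : ℂ) ^ j =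
      ∑ j ∈ Finset.range (n + 1), b j * (X : ℂ) ^ j) {i : ℕ} (hi : i ≤ n) : a i = b i := by
  have hz : polyOf n a - polyOf n b = 0 := by
    refine Polynomial.eq_zero_of_infinite_isRoot _ (infinite_shifts one_ne_zero _ fun m => ?_)
    have := h ⟨_, shift_im_pos m 1⟩
    simp only [Set.mem_ofPred_eq, Polynomial.IsRoot.def, Polynomial.eval_sub, polyOf_eval]
    exact sub_eq_zero.mpr this
  have := congrArg (fun P => Polynomial.coeff P i) (sub_eq_zero.mp hz)
  simpa [polyOf_coeff n _ hi] using this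

/-- A periodic polynomial function on `ℍ` is constant. -/
lemma PolyOn.const_of_periodic {n : ℕ} {p : ℍ → ℂ} (hp : PolyOn n p) {M : ℝ} (hM : M ≠ 0)
    (hper : Periodic (p ∘ ofComplex) (M : ℂ)) : ∃ c, ∀ X, p X = c := by
  obtain ⟨a, ha⟩ := hp
  refine ⟨p UpperHalfPlane.I, fun X => ?_⟩
  have hz : polyOf n a - Polynomial.C (p UpperHalfPlane.I) = 0 := by
    refine Polynomial.eq_zero_of_infinite_isRoot _ (infinite_shifts hM _ fun m => ?_)
    simp only [Set.mem_ofPred_eq, Polynomial.IsRoot.def, Polynomial.eval_sub, polyOf_eval,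
      Polynomial.eval_C]
    have h1 := ha ⟨_, shift_im_pos m M⟩
    have h2 : (p ∘ ofComplex) (Complex.I + (m : ℂ) * (M : ℂ)) = (p ∘ ofComplex) Complex.I :=
      (hper.nat_mul m) Complex.I
    rw [comp_apply, comp_apply, ofComplex_apply_of_im_pos (shift_im_pos m M)] at h2
    have h3 : ofComplex Complex.I = UpperHalfPlane.I := ofComplex_apply UpperHalfPlane.I
    rw [h3] at h2
    rw [← h2, h1]
    exact sub_self _
  have h4 := congrArg (fun P => Polynomial.eval (X : ℂ) P) (sub_eq_zero.mp hz)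
  simp only [polyOf_eval, Polynomial.eval_C] at h4
  rw [ha X, h4]

end FAH3
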