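import Fermat.Agent.H3.Hecke
import Fermat.Prelude.Sol.S_ModularForm_heckeT_slash_eq_self_of_mem_Gamma0

set_option autoImplicit false

open UpperHalfPlane hiding I
open Complex Filter Function Topology CongruenceSubgroup Matrix.SpecialLinearGroup
open scoped Manifold MatrixGroups ModularForm Pointwise

noncomputable section

namespace FAH3

section IsPolL

variable {V : Type*} [AddCommGroup V] [Module ℂ V] (n : ℕ) (Λ : Submodule ℤ (Module.Dual ℂ V))

/-- `L f` is a polynomial of degree `≤ n` whose coefficients are functionals of `f` lying in `Λ`. -/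
def IsPolL (L : V → ℍ → ℂ) : Prop :=
  ∃ a : ℕ → Module.Dual ℂ V, (∀ j ≤ n, a j ∈ Λ) ∧
    ∀ f X, L f X = ∑ j ∈ Finset.range (n + 1), a j f * (X : ℂ) ^ j

variable {n Λ}

lemma IsPolL.zero : IsPolL n Λ (fun _ => (0 : ℍ → ℂ)) :=
  ⟨0, fun _ _ => Λ.zero_mem, fun f X => by simp⟩

lemma IsPolL.add {L L' : V → ℍ → ℂ} (h : IsPolL n Λ L) (h' : IsPolL n Λ L') :
    IsPolL n Λ (fun f => L f + L' f) := by
  obtain ⟨a, ha, hL⟩ := h
  obtain ⟨a', ha', hL'⟩ := h'
  refine ⟨a + a', fun j hj => Λ.add_mem (ha j hj) (ha' j hj), fun f X => ?_⟩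
  simp [hL, hL', add_mul, Finset.sum_add_distrib]

lemma IsPolL.neg {L : V → ℍ → ℂ} (h : IsPolL n Λ L) : IsPolL n Λ (fun f => -L f) := by
  obtain ⟨a, ha, hL⟩ := h
  refine ⟨-a, fun j hj => Λ.neg_mem (ha j hj), fun f X => ?_⟩
  simp [hL, Finset.sum_neg_distrib]

lemma IsPolL.sum {ι : Type*} (s : Finset ι) {L : ι → V → ℍ → ℂ} (h : ∀ i ∈ s, IsPolL n Λ (L i)) :
    IsPolL n Λ (fun f => ∑ i ∈ s, L i f) := by
  classical
  induction s using Finset.induction_on with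
  | empty => simpa using IsPolL.zero
  | insert a s ha ih =>
    simp only [Finset.sum_insert ha]
    exact (h a (Finset.mem_insert_self a s)).add (ih fun i hi => h i (Finset.mem_insert_of_mem hi))

lemma IsPolL.act {L : V → ℍ → ℂ} (h : IsPolL n Λ L) (g : GL (Fin 2) ℝ) (hdet : 0 < g.det.val)
    (a b c d : ℤ) (h00 : g 0 0 = a) (h01 : g 0 1 = b) (h10 : g 1 0 = c) (h11 : g 1 1 = d) :
    IsPolL n Λ (fun f X => denom g X ^ n * L f (g • X)) := by
  obtain ⟨α, hα, hL⟩ := h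
  refine ⟨fun i => ∑ j ∈ Finset.range (n + 1), actCoeff n a b c d i j • α j, fun i _ => ?_,
    fun f X => ?_⟩
  · exact Λ.sum_mem fun j hj => Λ.smul_mem _ (hα j (Nat.lt_succ_iff.mp (Finset.mem_range.mp hj)))
  · show denom g X ^ n * L f (g • X) = _
    rw [hL, act_identity n g hdet a b c d h00 h01 h10 h11]
    refine Finset.sum_congr rfl fun i _ => ?_
    congr 1
    simp [LinearMap.sum_apply, zsmul_eq_mul]

lemma IsPolL.congr {L L' : V → ℍ → ℂ} (h : IsPolL n Λ L) (e : ∀ f, L' f = L f) : IsPolL n Λ L' := by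
  have : L' = L := funext e
  rw [this]; exact h

lemma IsPolL.slash_SL {L : V → ℍ → ℂ} (h : IsPolL n Λ L) (γ : SL(2, ℤ)) :
    IsPolL n Λ (fun f => L f ∣[-(n : ℤ)] γ) := by
  refine (h.act (γ : GL (Fin 2) ℝ) (by simp) (γ 0 0) (γ 0 1) (γ 1 0) (γ 1 1)
    (by simp) (by simp) (by simp) (by simp)).congr fun f => ?_
  funext X
  rw [ModularForm.SL_slash_apply, neg_neg, zpow_natCast, mul_comm]
  rfl

lemma IsPolL.slash_heckeMatrix {L : V → ℍ → ℂ} (h : IsPolL n Λ L) {p : ℕ} (hp : p ≠ 0) (j : ℕ) :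
    IsPolL n Λ (fun f => ((p : ℂ) ^ (n + 1)) • (L f ∣[-(n : ℤ)] ModularForm.heckeMatrix p j)) := by
  have hp' : (p : ℂ) ≠ 0 := by exact_mod_cast hp
  refine (h.act (ModularForm.heckeMatrix p j) (ModularForm.det_heckeMatrix_pos p j) 1 j 0 p
    (by simp [ModularForm.val_heckeMatrix hp]) (by simp [ModularForm.val_heckeMatrix hp])
    (by simp [ModularForm.val_heckeMatrix hp]) (by simp [ModularForm.val_heckeMatrix hp])).congr
    fun f => ?_
  funext X
  rw [Pi.smul_apply, ModularForm.slash_heckeMatrix_apply _ hp, ModularForm.denom_heckeMatrix hp,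
    smul_eq_mul, pow_succ]
  field_simp

lemma IsPolL.slash_heckeDiagMatrix {L : V → ℍ → ℂ} (h : IsPolL n Λ L) {p : ℕ} (hp : p ≠ 0) :
    IsPolL n Λ (fun f => ((p : ℂ) ^ (n + 1)) • (L f ∣[-(n : ℤ)] ModularForm.heckeDiagMatrix p)) := by
  have hp' : (p : ℂ) ≠ 0 := by exact_mod_cast hp
  refine (h.act (ModularForm.heckeDiagMatrix p) (ModularForm.det_heckeDiagMatrix_pos p) p 0 0 1
    (by simp [ModularForm.val_heckeDiagMatrix hp]) (by simp [ModularForm.val_heckeDiagMatrix hp])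
    (by simp [ModularForm.val_heckeDiagMatrix hp]) (by simp [ModularForm.val_heckeDiagMatrix hp])).congr
    fun f => ?_
  funext X
  rw [Pi.smul_apply, ModularForm.slash_heckeDiagMatrix_apply _ hp,
    ModularForm.denom_heckeDiagMatrix hp, smul_eq_mul, one_pow, one_mul, ← mul_assoc,
    ← zpow_natCast, ← zpow_add₀ hp']
  have : ((n + 1 : ℕ) : ℤ) + (-(n : ℤ) - 1) = 0 := by push_cast; ring
  rw [this, zpow_zero, one_mul]

end IsPolL

section HeckeRel

open P2MW.S_ModularForm_heckeT_slash_eq_self_of_mem_Gamma0.ModularForm.HeckeSlashInvariance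

variable {N : ℕ} [NeZero N] (n : ℕ)
  {Λ : Submodule ℤ (Module.Dual ℂ (CuspForm (Gamma0 N) ((n : ℤ) + 2)))}

theorem isPolL_coc_heckeT {p : ℕ} (hp : p.Prime) (hpN : ¬ p ∣ N)
    (H : ∀ γ ∈ Gamma0 N, IsPolL n Λ (fun f => coc n γ f)) {γ : SL(2, ℤ)} (hγ : γ ∈ Gamma0 N) :
    IsPolL n Λ (fun f => coc n γ (CuspForm.heckeTLin ((n : ℤ) + 2) hp hpN f)) := by
  have : Fact p.Prime := ⟨hp⟩
  have : NeZero p := ⟨hp.ne_zero⟩
  have hcN : (N : ℤ) ∣ γ 1 0 := (ZMod.intCast_zmod_eq_zero_iff_dvd _ _).mp (Gamma0_mem.mp hγ)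
  choose g' hg' hmul using heckeRep_mul hpN γ hcN
  have hg'N : ∀ x, g' x ∈ Gamma0 N := fun x =>
    Gamma0_mem.mpr ((ZMod.intCast_zmod_eq_zero_iff_dvd _ _).mpr (hg' x))
  have key : ∀ f, coc n γ (CuspForm.heckeTLin ((n : ℤ) + 2) hp hpN f) =
      ∑ x : OnePoint (ZMod p), ((p : ℂ) ^ (n + 1)) •
        ((coc n (g' x) f) ∣[-(n : ℤ)] heckeRep p (redMatrix p γ • x)) := by
    intro f
    have h1 : (ModularForm.heckeT (-(n : ℤ)) p (eich n f)) ∣[-(n : ℤ)] γ =
        ∑ x : OnePoint (ZMod p),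
          (eich n f ∣[-(n : ℤ)] g' x) ∣[-(n : ℤ)] heckeRep p (redMatrix p γ • x) := by
      rw [heckeT_eq_sum_onePoint]
      show (∑ x : OnePoint (ZMod p), eich n f ∣[-(n : ℤ)] heckeRep p x) ∣[-(n : ℤ)] (mapGL ℝ γ) = _
      rw [SlashAction.sum_slash]
      refine Finset.sum_congr rfl fun x _ => ?_
      rw [← SlashAction.slash_mul, hmul x, SlashAction.slash_mul]
      rfl
    have h2 : ModularForm.heckeT (-(n : ℤ)) p (eich n f) =
        ∑ x : OnePoint (ZMod p), eich n f ∣[-(n : ℤ)] heckeRep p (redMatrix p γ • x) := by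
      rw [heckeT_eq_sum_onePoint]
      exact (Equiv.sum_comp (MulAction.toPerm (redMatrix p γ))
        (fun x => eich n f ∣[-(n : ℤ)] heckeRep p x)).symm
    rw [coc_apply, eich_heckeT, ModularForm.SL_smul_slash, ← smul_sub, h1, h2,
      ← Finset.sum_sub_distrib, Finset.smul_sum]
    refine Finset.sum_congr rfl fun x _ => ?_
    rw [coc_apply, sub_eq_add_neg (eich n f ∣[-(n : ℤ)] g' x), SlashAction.add_slash,
      SlashAction.neg_slash, ← sub_eq_add_neg]
  refine (IsPolL.sum Finset.univ fun x _ => ?_).congr key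
  generalize redMatrix p γ • x = y
  induction y using OnePoint.rec with
  | infty => exact (H _ (hg'N x)).slash_heckeDiagMatrix hp.ne_zero
  | coe j => exact (H _ (hg'N x)).slash_heckeMatrix hp.ne_zero j.val

theorem isPolL_coc_heckeU {p : ℕ} (hpN : p ∣ N)
    (H : ∀ γ ∈ Gamma0 N, IsPolL n Λ (fun f => coc n γ f)) {γ : SL(2, ℤ)} (hγ : γ ∈ Gamma0 N) :
    IsPolL n Λ (fun f => coc n γ (CuspForm.heckeULin ((n : ℤ) + 2) hpN f)) := by
  have hp0 : p ≠ 0 := fun h => NeZero.ne N (Nat.eq_zero_of_zero_dvd (h ▸ hpN))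
  have : NeZero p := ⟨hp0⟩
  have hcN : (N : ℤ) ∣ γ 1 0 := (ZMod.intCast_zmod_eq_zero_iff_dvd _ _).mp (Gamma0_mem.mp hγ)
  have hc : (p : ℤ) ∣ γ 1 0 := (Int.natCast_dvd_natCast.mpr hpN).trans hcN
  choose g' hg' hmul using heckeMatrix_mul_of_dvd γ hc
  have hg'N : ∀ x, g' x ∈ Gamma0 N := fun x => by
    rw [Gamma0_mem, hg' x]
    push_cast
    rw [Gamma0_mem.mp hγ, mul_zero]
  set σ := affinePerm γ ((ZMod.intCast_zmod_eq_zero_iff_dvd _ _).mpr hc) with hσ
  have key : ∀ f, coc n γ (CuspForm.heckeULin ((n : ℤ) + 2) hpN f) =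
      ∑ x : ZMod p, ((p : ℂ) ^ (n + 1)) •
        ((coc n (g' x) f) ∣[-(n : ℤ)] ModularForm.heckeMatrix p (σ x).val) := by
    intro f
    have h1 : (ModularForm.heckeU (-(n : ℤ)) p (eich n f)) ∣[-(n : ℤ)] γ =
        ∑ x : ZMod p,
          (eich n f ∣[-(n : ℤ)] g' x) ∣[-(n : ℤ)] ModularForm.heckeMatrix p (σ x).val := by
      rw [heckeU_eq_sum_zmod]
      show (∑ x : ZMod p, eich n f ∣[-(n : ℤ)] ModularForm.heckeMatrix p x.val) ∣[-(n : ℤ)]
        (mapGL ℝ γ) = _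
      rw [SlashAction.sum_slash]
      refine Finset.sum_congr rfl fun x _ => ?_
      rw [← SlashAction.slash_mul, hmul x, SlashAction.slash_mul]
      rfl
    have h2 : ModularForm.heckeU (-(n : ℤ)) p (eich n f) =
        ∑ x : ZMod p, eich n f ∣[-(n : ℤ)] ModularForm.heckeMatrix p (σ x).val := by
      rw [heckeU_eq_sum_zmod]
      exact (Equiv.sum_comp σ
        (fun x => eich n f ∣[-(n : ℤ)] ModularForm.heckeMatrix p x.val)).symm
    rw [coc_apply, eich_heckeU, ModularForm.SL_smul_slash, ← smul_sub, h1, h2,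
      ← Finset.sum_sub_distrib, Finset.smul_sum]
    refine Finset.sum_congr rfl fun x _ => ?_
    rw [coc_apply, sub_eq_add_neg (eich n f ∣[-(n : ℤ)] g' x), SlashAction.add_slash,
      SlashAction.neg_slash, ← sub_eq_add_neg]
  refine (IsPolL.sum Finset.univ fun x _ => ?_).congr key
  exact (H _ (hg'N x)).slash_heckeMatrix hp0 _

end HeckeRel

end FAH3
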