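import Mathlib

set_option autoImplicit false

open UpperHalfPlane hiding I
open Complex Filter Function Topology
open scoped Manifold MatrixGroups ModularForm

noncomputable section

namespace FAH3

/-- `F` has complex derivative `f` on the upper half plane. -/
def HD (F f : ℍ → ℂ) : Prop := ∀ τ : ℍ, HasDerivAt (F ∘ ofComplex) (f τ) (τ : ℂ)

lemma HD.mdiff {F f : ℍ → ℂ} (h : HD F f) : MDiff F :=
  fun τ => mdifferentiableAt_iff.mpr (h τ).differentiableAt

lemma HD.add {F f G g : ℍ → ℂ} (h : HD F f) (h' : HD G g) : HD (F + G) (f + g) :=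
  fun τ => (h τ).add (h' τ)

lemma HD.sub {F f G g : ℍ → ℂ} (h : HD F f) (h' : HD G g) : HD (F - G) (f - g) :=
  fun τ => (h τ).sub (h' τ)

lemma HD.const_smul {F f : ℍ → ℂ} (c : ℂ) (h : HD F f) : HD (c • F) (c • f) :=
  fun τ => (h τ).const_smul c

lemma HD.mul {F f G g : ℍ → ℂ} (h : HD F f) (h' : HD G g) : HD (F * G) (f * G + F * g) := by
  intro τ
  have := (h τ).mul (h' τ)
  simp only [Function.comp_apply, ofComplex_apply] at this
  exact this

lemma HD.zero : HD 0 0 := fun _ => hasDerivAt_const _ _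

lemma HD.congr_right {F f g : ℍ → ℂ} (h : HD F f) (hfg : f = g) : HD F g := hfg ▸ h

lemma HD.sum {ι : Type*} (s : Finset ι) {F f : ι → ℍ → ℂ} (h : ∀ i ∈ s, HD (F i) (f i)) :
    HD (∑ i ∈ s, F i) (∑ i ∈ s, f i) := by
  classical
  induction s using Finset.induction_on with
  | empty => simpa using HD.zero
  | insert a s ha ih =>
    rw [Finset.sum_insert ha, Finset.sum_insert ha]
    exact (h a (Finset.mem_insert_self a s)).add
      (ih fun i hi => h i (Finset.mem_insert_of_mem hi))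

/-- derivative is unique -/
lemma HD.unique {F f g : ℍ → ℂ} (h : HD F f) (h' : HD F g) : f = g :=
  funext fun τ => (h τ).unique (h' τ)

/-- A function of a complex variable restricted to `ℍ`. -/
lemma HD.of_complex {P : ℂ → ℂ} {P' : ℂ → ℂ} (h : ∀ z : ℂ, 0 < z.im → HasDerivAt P (P' z) z) :
    HD (fun τ : ℍ => P τ) (fun τ : ℍ => P' τ) := by
  intro τ
  refine (h τ τ.im_pos).congr_of_eventuallyEq ?_
  filter_upwards [isOpen_upperHalfPlaneSet.mem_nhds τ.im_pos] with z hz
  simp [Function.comp_apply, ofComplex_apply_of_im_pos hz]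

/-- Chain rule for self-maps of `ℍ`. -/
lemma HD.comp {F f : ℍ → ℂ} (h : HD F f) (m : ℍ → ℍ) (m' : ℍ → ℂ)
    (hm : ∀ τ : ℍ, HasDerivAt (fun z : ℂ => ((m (ofComplex z) : ℍ) : ℂ)) (m' τ) τ) :
    HD (fun τ => F (m τ)) (fun τ => f (m τ) * m' τ) := by
  intro τ
  have h1 : HasDerivAt (F ∘ ofComplex) (f (m τ)) ((fun z : ℂ => ((m (ofComplex z) : ℍ) : ℂ)) τ) := by
    simpa [ofComplex_apply] using h (m τ)
  have h2 := h1.comp (τ : ℂ) (hm τ)
  refine h2.congr_of_eventuallyEq ?_
  filter_upwards with z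
  simp [Function.comp_apply, ofComplex_apply]

/-- A function with zero derivative on `ℍ` is constant. -/
lemma HD.const_of_zero {F : ℍ → ℂ} (h : HD F 0) (τ τ' : ℍ) : F τ = F τ' := by
  have hconv : Convex ℝ {z : ℂ | 0 < z.im} := convex_halfSpace_im_gt 0
  have hd : DifferentiableOn ℂ (F ∘ ofComplex) {z : ℂ | 0 < z.im} := fun z hz =>
    (h ⟨z, hz⟩).differentiableAt.differentiableWithinAt
  have hz : ∀ z ∈ {z : ℂ | 0 < z.im}, fderivWithin ℂ (F ∘ ofComplex) {z : ℂ | 0 < z.im} z = 0 := by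
    intro z hz
    rw [fderivWithin_eq_fderiv (isOpen_upperHalfPlaneSet.uniqueDiffWithinAt hz)
      (h ⟨z, hz⟩).differentiableAt]
    have := (h ⟨z, hz⟩).hasFDerivAt.fderiv
    rw [this]
    ext
    simp
  have := hconv.is_const_of_fderivWithin_eq_zero (𝕜 := ℂ) hd hz τ.im_pos τ'.im_pos
  simpa [ofComplex_apply] using this

/-- The class of holomorphic `h`-periodic functions vanishing at `i∞`. -/
structure CuspLike (h : ℝ) (f : ℍ → ℂ) : Prop where
  mdiff : MDiff f
  per : Periodic (f ∘ ofComplex) h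
  zero : IsZeroAtImInfty f

lemma qParam_add_period {h : ℝ} (hh : h ≠ 0) (w : ℂ) :
    Periodic.qParam h (w + h) = Periodic.qParam h w := by
  have hh' : (h : ℂ) ≠ 0 := by exact_mod_cast hh
  unfold Periodic.qParam
  rw [show 2 * (Real.pi : ℂ) * I * (w + h) / h = 2 * Real.pi * I * w / h + 2 * Real.pi * I by
    field_simp]
  exact Complex.exp_periodic _

lemma hasDerivAt_qParam (h : ℝ) (z : ℂ) :
    HasDerivAt (Periodic.qParam h) (2 * Real.pi * I / h * Periodic.qParam h z) z := by
  unfold Periodic.qParam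
  have h1 : HasDerivAt (fun z : ℂ => 2 * (Real.pi : ℂ) * I * z / h) (2 * Real.pi * I / h) z := by
    have := ((hasDerivAt_id z).const_mul (2 * (Real.pi : ℂ) * I)).div_const (h : ℂ)
    simpa using this
  exact h1.cexp.congr_deriv (by ring)

theorem exists_prim {h : ℝ} (hh : 0 < h) {f : ℍ → ℂ} (hf : CuspLike h f) :
    ∃ F, CuspLike h F ∧ HD F f := by
  have hh' : (h : ℂ) ≠ 0 := by exact_mod_cast hh.ne'
  set φ := cuspFunction h f with hφ
  have hφd : DifferentiableOn ℂ φ (Metric.ball 0 1) :=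
    differentiableOn_cuspFunction_ball hh hf.per hf.mdiff hf.zero.isBoundedAtImInfty
  have hφ0 : φ 0 = 0 := by
    rw [hφ, cuspFunction_apply_zero hh
      (analyticAt_cuspFunction_zero hh hf.per hf.mdiff hf.zero.isBoundedAtImInfty) hf.per]
    exact hf.zero.valueAtInfty_eq_zero
  have hψd : DifferentiableOn ℂ (dslope φ 0) (Metric.ball 0 1) :=
    (Complex.differentiableOn_dslope (Metric.ball_mem_nhds 0 one_pos)).mpr hφd
  obtain ⟨Ψ, hΨ0, hΨ⟩ := hψd.isExactOn_ball.with_val_at 0 0
  have hHD : HD (fun τ : ℍ => (h / (2 * Real.pi * I)) * Ψ (Periodic.qParam h τ)) f := by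
    have key : HD (fun τ : ℍ => (fun z : ℂ => (h / (2 * Real.pi * I)) * Ψ (Periodic.qParam h z)) τ)
        (fun τ : ℍ => (fun z : ℂ => φ (Periodic.qParam h z)) τ) := by
      refine HD.of_complex (P := fun z : ℂ => (h / (2 * Real.pi * I)) * Ψ (Periodic.qParam h z))
        (P' := fun z : ℂ => φ (Periodic.qParam h z)) ?_
      intro z hz
      have hq : Periodic.qParam h z ∈ Metric.ball (0 : ℂ) 1 := by
        simpa using Periodic.norm_qParam_lt_one hh hz
      have h1 := ((hΨ _ hq).comp z (hasDerivAt_qParam h z)).const_mul ((h : ℂ) / (2 * Real.pi * I))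
      refine h1.congr_deriv ?_
      have h2 := sub_smul_dslope φ 0 (Periodic.qParam h z)
      rw [hφ0, sub_zero, sub_zero, smul_eq_mul] at h2
      rw [← h2]
      have hpi : (Real.pi : ℂ) ≠ 0 := by exact_mod_cast Real.pi_ne_zero
      field_simp
    refine key.congr_right ?_
    funext τ
    exact eq_cuspFunction τ hh.ne' hf.per
  refine ⟨_, ⟨hHD.mdiff, ?_, ?_⟩, hHD⟩
  · intro w
    by_cases hw : 0 < im w
    · have hw' : 0 < im (w + h) := by simpa using hw
      simp only [comp_apply, ofComplex_apply_of_im_pos hw', ofComplex_apply_of_im_pos hw]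
      show _ * Ψ (Periodic.qParam h (w + h)) = _ * Ψ (Periodic.qParam h w)
      rw [qParam_add_period hh.ne']
    · have hw1 : im w ≤ 0 := not_lt.mp hw
      have hw' : im (w + h) ≤ 0 := by simpa using hw1
      simp only [comp_apply, ofComplex_apply_of_im_nonpos hw', ofComplex_apply_of_im_nonpos hw1]
  · have h0 : (0 : ℂ) ∈ Metric.ball (0 : ℂ) 1 := by simp
    have h1 : Tendsto (fun τ : ℍ => Ψ (Periodic.qParam h τ)) atImInfty (𝓝 (Ψ 0)) :=
      (hΨ 0 h0).continuousAt.tendsto.comp (qParam_tendsto_atImInfty hh)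
    have h2 := h1.const_mul ((h : ℂ) / (2 * Real.pi * I))
    rw [hΨ0, mul_zero] at h2
    exact h2

/-- Uniqueness of primitives vanishing at `i∞`. -/
theorem prim_unique {F G f : ℍ → ℂ} (hF : HD F f) (hG : HD G f) (hF0 : IsZeroAtImInfty F)
    (hG0 : IsZeroAtImInfty G) : F = G := by
  have h : HD (F - G) 0 := by simpa using hF.sub hG
  have hc : ∀ τ, (F - G) τ = (F - G) UpperHalfPlane.I := fun τ => h.const_of_zero τ _
  have ht : Tendsto (F - G) atImInfty (𝓝 0) := by
    have := Tendsto.sub hF0 hG0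
    rw [sub_zero] at this
    exact this
  have ht' : Tendsto (F - G) atImInfty (𝓝 ((F - G) UpperHalfPlane.I)) := by
    have : (F - G) = fun _ => (F - G) UpperHalfPlane.I := funext hc
    rw [this]
    exact tendsto_const_nhds
  have h0 := tendsto_nhds_unique ht' ht
  funext τ
  have := hc τ
  rw [h0] at this
  exact sub_eq_zero.mp this

/-- A sequence of successive primitives, all vanishing at `i∞`. -/
structure ZChain (g : ℕ → ℍ → ℂ) : Prop where
  hd : ∀ i, HD (g (i + 1)) (g i)
  zero : ∀ i, IsZeroAtImInfty (g i)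

theorem exists_chain {h : ℝ} (hh : 0 < h) {f : ℍ → ℂ} (hf : CuspLike h f) :
    ∃ g : ℕ → ℍ → ℂ, g 0 = f ∧ (∀ i, CuspLike h (g i)) ∧ ∀ i, HD (g (i + 1)) (g i) := by
  classical
  let step : {f : ℍ → ℂ // CuspLike h f} → {f : ℍ → ℂ // CuspLike h f} := fun f =>
    ⟨Classical.choose (exists_prim hh f.2), (Classical.choose_spec (exists_prim hh f.2)).1⟩
  have hstep : ∀ f : {f : ℍ → ℂ // CuspLike h f}, HD (step f).1 f.1 := fun f =>
    (Classical.choose_spec (exists_prim hh f.2)).2
  refine ⟨fun i => (step^[i] ⟨f, hf⟩).1, rfl, fun i => (step^[i] ⟨f, hf⟩).2, fun i => ?_⟩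
  show HD (step^[i + 1] ⟨f, hf⟩).1 (step^[i] ⟨f, hf⟩).1
  rw [Function.iterate_succ_apply']
  exact hstep _

theorem ZChain.unique {g g' : ℕ → ℍ → ℂ} (hg : ZChain g) (hg' : ZChain g') (h0 : g 0 = g' 0) :
    g = g' := by
  funext i
  induction i with
  | zero => exact h0
  | succ i ih =>
    exact prim_unique (hg.hd i) (ih ▸ hg'.hd i) (hg.zero _) (hg'.zero _)

theorem ZChain.add {g g' : ℕ → ℍ → ℂ} (hg : ZChain g) (hg' : ZChain g') : ZChain (g + g') where
  hd i := (hg.hd i).add (hg'.hd i)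
  zero i := by
    have := Tendsto.add (hg.zero i) (hg'.zero i)
    rw [add_zero] at this
    exact this

theorem ZChain.smul {g : ℕ → ℍ → ℂ} (c : ℂ) (hg : ZChain g) : ZChain (c • g) where
  hd i := (hg.hd i).const_smul c
  zero i := by
    have := Tendsto.const_smul (hg.zero i) c
    rw [smul_zero] at this
    exact this

/-- If some term of a chain vanishes, then so do all the previous ones. -/
theorem chain_eq_zero_of_eq_zero {g : ℕ → ℍ → ℂ} (hd : ∀ i, HD (g (i + 1)) (g i)) (m : ℕ)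
    (hm : g m = 0) : g 0 = 0 := by
  induction m with
  | zero => exact hm
  | succ m ih =>
    apply ih
    have h1 := hd m
    rw [hm] at h1
    exact h1.unique HD.zero

end FAH3
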