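import Fermat.Agent.H3.Eichler
import Fermat.Prelude.Thm_CongruenceSubgroup_one_mem_strictPeriods_Gamma0
import Fermat.Prelude.Thm_Subgroup_IsArithmetic_exists_nat_mem_strictPeriods_conj

set_option autoImplicit false

open UpperHalfPlane hiding I
open Complex Filter Function Topology CongruenceSubgroup Matrix.SpecialLinearGroup
open scoped Manifold MatrixGroups ModularForm Pointwise

noncomputable section

namespace FAH3

variable {N : ℕ} [NeZero N] {k : ℤ}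

lemma cuspLike_cuspForm (f : CuspForm (Gamma0 N) k) : CuspLike 1 ⇑f where
  mdiff := CuspFormClass.holo f
  per := by
    have := SlashInvariantFormClass.periodic_comp_ofComplex f
      (CongruenceSubgroup.one_mem_strictPeriods_Gamma0 N)
    simpa using this
  zero := CuspFormClass.zero_at_infty f

lemma exists_period (N : ℕ) [NeZero N] : ∃ M : ℕ, 0 < M ∧ ∀ δ : SL(2, ℤ),
    (M : ℝ) ∈ (ConjAct.toConjAct (mapGL ℝ δ)⁻¹ •
      (Gamma0 N : Subgroup (GL (Fin 2) ℝ))).strictPeriods := by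
  obtain ⟨M, hM, h⟩ := Subgroup.IsArithmetic.exists_nat_mem_strictPeriods_conj
    (Gamma0 N : Subgroup (GL (Fin 2) ℝ))
  refine ⟨M, hM, fun δ => ?_⟩
  have := h δ⁻¹
  rwa [map_inv] at this

lemma cuspLike_slash (f : CuspForm (Gamma0 N) k) {M : ℕ} (δ : SL(2, ℤ))
    (hM : (M : ℝ) ∈ (ConjAct.toConjAct (mapGL ℝ δ)⁻¹ •
      (Gamma0 N : Subgroup (GL (Fin 2) ℝ))).strictPeriods) :
    CuspLike (M : ℝ) (⇑f ∣[k] δ) where
  mdiff := (CuspFormClass.holo f).slash k _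
  per := SlashInvariantFormClass.periodic_comp_ofComplex (CuspForm.translate f (mapGL ℝ δ)) hM
  zero := CuspFormClass.zero_at_infty_slash f δ

theorem bounded_slash (n : ℕ) (f : CuspForm (Gamma0 N) ((n : ℤ) + 2)) (g : ℕ → ℍ → ℂ)
    (hd : ∀ i, HD (g (i + 1)) (g i)) (h0 : g 0 = f)
    (hinv : ∀ γ ∈ (Gamma0 N : Subgroup (GL (Fin 2) ℝ)), g (n + 1) ∣[-(n : ℤ)] γ = g (n + 1))
    (δ : SL(2, ℤ)) : IsBoundedAtImInfty (g (n + 1) ∣[-(n : ℤ)] δ) := by
  obtain ⟨M, hMpos, hM⟩ := exists_period N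
  have hMpos' : (0 : ℝ) < (M : ℝ) := by exact_mod_cast hMpos
  have hc := cuspLike_slash f δ (hM δ)
  obtain ⟨g', hg'0, hg'c, hg'd⟩ := exists_chain hMpos' hc
  have hP := lemmaE n δ g g' hd hg'd (by rw [hg'0, h0])
  let Fs : SlashInvariantForm (Gamma0 N : Subgroup (GL (Fin 2) ℝ)) (-(n : ℤ)) := ⟨g (n + 1), hinv⟩
  have hper1 : Periodic ((g (n + 1) ∣[-(n : ℤ)] δ) ∘ ofComplex) ((M : ℝ) : ℂ) :=
    SlashInvariantFormClass.periodic_comp_ofComplex (SlashInvariantForm.translate Fs (mapGL ℝ δ))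
      (hM δ)
  have hper2 := (hg'c (n + 1)).per
  have hper : Periodic ((g (n + 1) ∣[-(n : ℤ)] δ - g' (n + 1)) ∘ ofComplex) ((M : ℝ) : ℂ) :=
    hper1.sub hper2
  obtain ⟨c, hc⟩ := hP.const_of_periodic hMpos'.ne' hper
  have e : g (n + 1) ∣[-(n : ℤ)] δ = g' (n + 1) + fun _ => c := by
    funext X
    have := hc X
    simp only [Pi.sub_apply, Pi.add_apply] at this ⊢
    linear_combination this
  rw [e]
  exact ((hg'c (n + 1)).zero.isBoundedAtImInfty).add (const_boundedAtFilter _ c)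

lemma modularForm_eq_zero_of_nonpos {𝒢 : Subgroup (GL (Fin 2) ℝ)} [𝒢.IsArithmetic] {w : ℤ}
    (hw : w ≤ 0) (F : ModularForm 𝒢 w) (hF : IsZeroAtImInfty ⇑F) : (⇑F : ℍ → ℂ) = 0 := by
  rcases hw.lt_or_eq with hw | rfl
  · rw [ModularForm.isZero_of_neg_weight hw F]
    rfl
  · obtain ⟨c, hc⟩ := ModularForm.eq_const_of_weight_zero F
    rw [hc] at hF ⊢
    have h1 : Tendsto (Function.const ℍ c) atImInfty (𝓝 c) := tendsto_const_nhds
    have h2 := tendsto_nhds_unique h1 hF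
    rw [h2]
    rfl

theorem vanish (n : ℕ) (f : CuspForm (Gamma0 N) ((n : ℤ) + 2)) (g : ℕ → ℍ → ℂ) (hg : ZChain g)
    (h0 : g 0 = f)
    (hinv : ∀ γ ∈ (Gamma0 N : Subgroup (GL (Fin 2) ℝ)), g (n + 1) ∣[-(n : ℤ)] γ = g (n + 1)) :
    f = 0 := by
  let Fm : ModularForm (Gamma0 N : Subgroup (GL (Fin 2) ℝ)) (-(n : ℤ)) :=
    { toFun := g (n + 1)
      slash_action_eq' := hinv
      holo' := (hg.hd n).mdiff
      bdd_at_cusps' := fun {c} hc => by
        rw [Subgroup.IsArithmetic.isCusp_iff_isCusp_SL2Z] at hc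
        rw [OnePoint.isBoundedAt_iff_forall_SL2Z hc]
        intro δ _
        exact bounded_slash n f g hg.hd h0 hinv δ }
  have hF : g (n + 1) = 0 :=
    modularForm_eq_zero_of_nonpos (by simp) Fm (hg.zero (n + 1))
  have h1 := chain_eq_zero_of_eq_zero hg.hd (n + 1) hF
  rw [h0] at h1
  exact DFunLike.coe_injective h1

end FAH3
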